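/-
S14Z (shared zeta-pole block of the S14 teams), part (Z4): primes of a number field whose norm
is not a prime number contribute a bounded amount to `sum_v N v ^ (-s)` for `s ≥ 1`.

Main statements (F any number field, `c1 F` an explicit constant):
* `exists_prime_mem`, `ratPrime`, `absNorm_eq_ratPrime_pow` : the rational prime under a prime.
* `card_le_deg` : at most `deg F` primes over a rational prime.
* `summable_nonPrimeNorm`, `tsum_nonPrimeNorm_le`, `sum_nonPrimeNorm_rpow_le` : (Z4).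
* `prod_nonPrimeNorm_inv_one_sub_le` : the corresponding bound for Euler factors.
-/
import Mathlib

set_option autoImplicit false

namespace Fermat.Agent.S14Z

open IsDedekindDomain Filter Topology NumberField

/-! ### Rational primes under a prime ideal -/

theorem exists_prime_cast_mem {R : Type*} [CommRing R] (P : Ideal R) [P.IsPrime] :
    ∀ m : ℕ, 2 ≤ m → (m : R) ∈ P → ∃ p : ℕ, p.Prime ∧ (p : R) ∈ P := by
  intro m
  induction m using Nat.strong_induction_on with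
  | _ m ih =>
    intro hm hmem
    by_cases hp : m.Prime
    · exact ⟨m, hp, hmem⟩
    · obtain ⟨a, ha, ha2, ham⟩ := Nat.exists_dvd_of_not_prime2 hm hp
      obtain ⟨b, rfl⟩ := ha
      have hb2 : 2 ≤ b := by
        by_contra h
        interval_cases b
        · omega
        · omega
      have hbm : b < a * b := by nlinarith
      rw [Nat.cast_mul] at hmem
      rcases Ideal.IsPrime.mem_or_mem inferInstance hmem with h | h
      · exact ih a ham ha2 h
      · exact ih b hbm hb2 h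

variable (F : Type*) [Field F] [NumberField F]

/-- every nonzero prime of `𝓞 F` contains a rational prime. -/
theorem exists_prime_mem (v : HeightOneSpectrum (𝓞 F)) :
    ∃ p : ℕ, p.Prime ∧ ((p : ℕ) : 𝓞 F) ∈ v.asIdeal := by
  have := v.isPrime
  refine exists_prime_cast_mem v.asIdeal (Ideal.absNorm v.asIdeal) ?_ (Ideal.absNorm_mem _)
  have h0 : Ideal.absNorm v.asIdeal ≠ 0 := by
    rw [Ne, Ideal.absNorm_eq_zero_iff]; exact v.ne_bot
  have h1 : Ideal.absNorm v.asIdeal ≠ 1 := by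
    rw [Ne, Ideal.absNorm_eq_one_iff]; exact v.isPrime.ne_top
  omega

/-- the rational prime under a prime ideal. -/
noncomputable def ratPrime (v : HeightOneSpectrum (𝓞 F)) : ℕ := (exists_prime_mem F v).choose

theorem ratPrime_prime (v : HeightOneSpectrum (𝓞 F)) : (ratPrime F v).Prime :=
  (exists_prime_mem F v).choose_spec.1

theorem ratPrime_mem (v : HeightOneSpectrum (𝓞 F)) : ((ratPrime F v : ℕ) : 𝓞 F) ∈ v.asIdeal :=
  (exists_prime_mem F v).choose_spec.2

/-- the degree bound used below: the norm of a rational integer `p` is `p ^ deg`. -/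
noncomputable def deg : ℕ := Module.finrank ℤ (𝓞 F)

theorem absNorm_span_natCast (p : ℕ) :
    Ideal.absNorm (Ideal.span {((p : ℕ) : 𝓞 F)}) = p ^ deg F := by
  rw [Ideal.absNorm_span_singleton]
  have : ((p : ℕ) : 𝓞 F) = algebraMap ℤ (𝓞 F) (p : ℤ) := by simp
  rw [this, Algebra.norm_algebraMap_of_basis (RingOfIntegers.basis F)]
  rw [deg, Module.finrank_eq_card_basis (RingOfIntegers.basis F)]
  simp [Int.natAbs_pow]

theorem absNorm_eq_ratPrime_pow (v : HeightOneSpectrum (𝓞 F)) :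
    ∃ k : ℕ, 1 ≤ k ∧ Ideal.absNorm v.asIdeal = ratPrime F v ^ k := by
  have hle : Ideal.span {((ratPrime F v : ℕ) : 𝓞 F)} ≤ v.asIdeal := by
    rw [Ideal.span_singleton_le_iff_mem]; exact ratPrime_mem F v
  have hdvd := Ideal.absNorm_dvd_absNorm_of_le hle
  rw [absNorm_span_natCast] at hdvd
  obtain ⟨k, -, hk⟩ := (Nat.dvd_prime_pow (ratPrime_prime F v)).1 hdvd
  refine ⟨k, ?_, hk⟩
  by_contra h
  have hk0 : k = 0 := by omega
  rw [hk0, pow_zero, Ideal.absNorm_eq_one_iff] at hk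
  exact v.isPrime.ne_top hk

theorem ratPrime_le_absNorm (v : HeightOneSpectrum (𝓞 F)) :
    ratPrime F v ≤ Ideal.absNorm v.asIdeal := by
  obtain ⟨k, hk1, hk⟩ := absNorm_eq_ratPrime_pow F v
  rw [hk]
  calc ratPrime F v = ratPrime F v ^ 1 := (pow_one _).symm
    _ ≤ ratPrime F v ^ k := Nat.pow_le_pow_right (ratPrime_prime F v).pos hk1

theorem ratPrime_sq_le_absNorm (v : HeightOneSpectrum (𝓞 F))
    (hv : ¬ (Ideal.absNorm v.asIdeal).Prime) :
    ratPrime F v ^ 2 ≤ Ideal.absNorm v.asIdeal := by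
  obtain ⟨k, hk1, hk⟩ := absNorm_eq_ratPrime_pow F v
  have hk2 : 2 ≤ k := by
    by_contra h
    have : k = 1 := by omega
    rw [this, pow_one] at hk
    exact hv (hk ▸ ratPrime_prime F v)
  rw [hk]
  exact Nat.pow_le_pow_right (ratPrime_prime F v).pos hk2

/-- at most `deg F` primes of `𝓞 F` contain a given rational prime. -/
theorem card_le_deg (p : ℕ) (hp : p.Prime) (T : Finset (HeightOneSpectrum (𝓞 F)))
    (hT : ∀ v ∈ T, ratPrime F v = p) : T.card ≤ deg F := by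
  classical
  have hinj : Function.Injective (fun v : HeightOneSpectrum (𝓞 F) => v.asIdeal) :=
    fun v w h => HeightOneSpectrum.ext h
  have hdvd : ∏ I ∈ T.image (fun v : HeightOneSpectrum (𝓞 F) => v.asIdeal), I ∣
      Ideal.span {((p : ℕ) : 𝓞 F)} := by
    refine Finset.prod_primes_dvd _ ?_ ?_
    · intro I hI
      obtain ⟨v, -, rfl⟩ := Finset.mem_image.1 hI
      exact v.prime
    · intro I hI
      obtain ⟨v, hv, rfl⟩ := Finset.mem_image.1 hI
      rw [Ideal.dvd_iff_le, Ideal.span_singleton_le_iff_mem, ← hT v hv]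
      exact ratPrime_mem F v
  rw [Finset.prod_image (fun v _ w _ h => hinj h)] at hdvd
  have h2 : Ideal.absNorm (∏ v ∈ T, v.asIdeal) ∣ p ^ deg F := by
    rw [← absNorm_span_natCast]
    exact Ideal.absNorm_dvd_absNorm_of_le (Ideal.le_of_dvd hdvd)
  rw [map_prod] at h2
  have h3 : p ^ T.card ≤ ∏ v ∈ T, Ideal.absNorm v.asIdeal := by
    refine Finset.pow_card_le_prod _ _ _ fun v hv => ?_
    rw [← hT v hv]; exact ratPrime_le_absNorm F v
  have h4 : ∏ v ∈ T, Ideal.absNorm v.asIdeal ≤ p ^ deg F :=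
    Nat.le_of_dvd (pow_pos hp.pos _) h2
  exact (Nat.pow_le_pow_iff_right hp.one_lt).1 (h3.trans h4)

/-! ### (Z4): primes of non-prime norm contribute a bounded amount -/

/-- the primes of `𝓞 F` whose norm is not a prime number. -/
def nonPrimeNorm : Set (HeightOneSpectrum (𝓞 F)) := {v | ¬ (Ideal.absNorm v.asIdeal).Prime}

theorem one_le_absNorm (v : HeightOneSpectrum (𝓞 F)) : (1 : ℝ) ≤ (Ideal.absNorm v.asIdeal : ℝ) := by
  have h0 : Ideal.absNorm v.asIdeal ≠ 0 := by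
    rw [Ne, Ideal.absNorm_eq_zero_iff]; exact v.ne_bot
  exact_mod_cast Nat.one_le_iff_ne_zero.2 h0

theorem rpow_neg_le_one (v : HeightOneSpectrum (𝓞 F)) {s : ℝ} (hs : 0 ≤ s) :
    (Ideal.absNorm v.asIdeal : ℝ) ^ (-s) ≤ 1 :=
  Real.rpow_le_one_of_one_le_of_nonpos (one_le_absNorm F v) (by linarith)

theorem rpow_neg_nonneg (v : HeightOneSpectrum (𝓞 F)) (s : ℝ) :
    0 ≤ (Ideal.absNorm v.asIdeal : ℝ) ^ (-s) := by positivity

theorem sum_nonPrimeNorm_le (u : Finset (HeightOneSpectrum (𝓞 F)))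
    (hu : ∀ v ∈ u, v ∈ nonPrimeNorm F) :
    ∑ v ∈ u, (Ideal.absNorm v.asIdeal : ℝ) ^ (-(1 : ℝ)) ≤
      (deg F : ℝ) * ∑' n : ℕ, 1 / (n : ℝ) ^ 2 := by
  classical
  have hsum : Summable (fun n : ℕ => 1 / (n : ℝ) ^ 2) :=
    Real.summable_one_div_nat_pow.mpr (by norm_num)
  have h1 : ∀ v ∈ u, (Ideal.absNorm v.asIdeal : ℝ) ^ (-(1 : ℝ)) ≤
      1 / ((ratPrime F v : ℕ) : ℝ) ^ 2 := by
    intro v hv
    have hsq := ratPrime_sq_le_absNorm F v (hu v hv)
    have hp : (0 : ℝ) < ((ratPrime F v : ℕ) : ℝ) ^ 2 := by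
      have := (ratPrime_prime F v).pos
      positivity
    rw [Real.rpow_neg_one, one_div]
    apply inv_anti₀ hp
    exact_mod_cast hsq
  calc ∑ v ∈ u, (Ideal.absNorm v.asIdeal : ℝ) ^ (-(1 : ℝ))
      ≤ ∑ v ∈ u, 1 / ((ratPrime F v : ℕ) : ℝ) ^ 2 := Finset.sum_le_sum h1
    _ = ∑ q ∈ u.image (ratPrime F), (u.filter (fun v => ratPrime F v = q)).card • (1 / (q : ℝ) ^ 2) :=
        Finset.sum_comp (fun q : ℕ => 1 / (q : ℝ) ^ 2) (ratPrime F)
    _ ≤ ∑ q ∈ u.image (ratPrime F), (deg F : ℝ) * (1 / (q : ℝ) ^ 2) := by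
        refine Finset.sum_le_sum fun q hq => ?_
        obtain ⟨v, hv, rfl⟩ := Finset.mem_image.1 hq
        rw [nsmul_eq_mul]
        have hc : (u.filter (fun w => ratPrime F w = ratPrime F v)).card ≤ deg F :=
          card_le_deg F _ (ratPrime_prime F v) _ (fun w hw => (Finset.mem_filter.1 hw).2)
        have : (0 : ℝ) ≤ 1 / ((ratPrime F v : ℕ) : ℝ) ^ 2 := by positivity
        exact mul_le_mul_of_nonneg_right (by exact_mod_cast hc) this
    _ = (deg F : ℝ) * ∑ q ∈ u.image (ratPrime F), 1 / (q : ℝ) ^ 2 := by rw [Finset.mul_sum]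
    _ ≤ (deg F : ℝ) * ∑' n : ℕ, 1 / (n : ℝ) ^ 2 := by
        refine mul_le_mul_of_nonneg_left ?_ (Nat.cast_nonneg _)
        exact hsum.sum_le_tsum _ (fun _ _ => by positivity)

/-- (Z4), summable form at `s = 1`. -/
theorem summable_nonPrimeNorm :
    Summable (fun v : nonPrimeNorm F => (Ideal.absNorm v.1.asIdeal : ℝ) ^ (-(1 : ℝ))) := by
  classical
  refine summable_of_sum_le (c := (deg F : ℝ) * ∑' n : ℕ, 1 / (n : ℝ) ^ 2)
    (fun v => rpow_neg_nonneg F v.1 1) (fun u => ?_)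
  have := sum_nonPrimeNorm_le F (u.map ⟨Subtype.val, Subtype.val_injective⟩) (by
    intro v hv
    obtain ⟨w, -, rfl⟩ := Finset.mem_map.1 hv
    exact w.2)
  rwa [Finset.sum_map] at this

/-- the constant of (Z4). -/
noncomputable def c1 : ℝ := ∑' v : nonPrimeNorm F, (Ideal.absNorm v.1.asIdeal : ℝ) ^ (-(1 : ℝ))

theorem rpow_neg_le_rpow_neg_one (v : HeightOneSpectrum (𝓞 F)) {s : ℝ} (hs : 1 ≤ s) :
    (Ideal.absNorm v.asIdeal : ℝ) ^ (-s) ≤ (Ideal.absNorm v.asIdeal : ℝ) ^ (-(1 : ℝ)) :=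
  Real.rpow_le_rpow_of_exponent_le (one_le_absNorm F v) (by linarith)

theorem summable_nonPrimeNorm_rpow {s : ℝ} (hs : 1 ≤ s) :
    Summable (fun v : nonPrimeNorm F => (Ideal.absNorm v.1.asIdeal : ℝ) ^ (-s)) :=
  Summable.of_nonneg_of_le (fun v => rpow_neg_nonneg F v.1 s)
    (fun v => rpow_neg_le_rpow_neg_one F v.1 hs) (summable_nonPrimeNorm F)

/-- (Z4): for `s ≥ 1`, the primes of non-prime norm contribute at most `c1 F`. -/
theorem tsum_nonPrimeNorm_le {s : ℝ} (hs : 1 ≤ s) :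
    ∑' v : nonPrimeNorm F, (Ideal.absNorm v.1.asIdeal : ℝ) ^ (-s) ≤ c1 F :=
  (summable_nonPrimeNorm_rpow F hs).tsum_le_tsum
    (fun v => rpow_neg_le_rpow_neg_one F v.1 hs) (summable_nonPrimeNorm F)

/-- (Z4), finite form. -/
theorem sum_nonPrimeNorm_rpow_le {s : ℝ} (hs : 1 ≤ s) (T : Finset (HeightOneSpectrum (𝓞 F))) :
    ∑ v ∈ T with ¬ (Ideal.absNorm v.asIdeal).Prime, (Ideal.absNorm v.asIdeal : ℝ) ^ (-s) ≤ c1 F := by
  classical
  have hsub : ∀ v ∈ T.filter (fun v => ¬ (Ideal.absNorm v.asIdeal).Prime), v ∈ nonPrimeNorm F :=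
    fun v hv => (Finset.mem_filter.1 hv).2
  have h := (summable_nonPrimeNorm_rpow F hs).sum_le_tsum
    ((T.filter (fun v => ¬ (Ideal.absNorm v.asIdeal).Prime)).subtype (· ∈ nonPrimeNorm F))
    (fun v _ => rpow_neg_nonneg F v.1 s)
  rw [Finset.sum_subtype_of_mem (fun v : HeightOneSpectrum (𝓞 F) => (Ideal.absNorm v.asIdeal : ℝ) ^ (-s)) hsub] at h
  exact h.trans (tsum_nonPrimeNorm_le F hs)

/-! ### Euler-factor form of (Z4) -/

theorem inv_one_sub_le_exp {x : ℝ} (hx0 : 0 ≤ x) (hx : x ≤ 1 / 2) :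
    (1 - x)⁻¹ ≤ Real.exp (2 * x) := by
  have h1 : (0 : ℝ) < 1 - x := by linarith
  have h2 : (1 - x)⁻¹ ≤ 1 + 2 * x := by
    rw [inv_le_iff_one_le_mul₀ h1]
    nlinarith
  have h3 : 1 + 2 * x ≤ Real.exp (2 * x) := by
    have := Real.add_one_le_exp (2 * x)
    linarith
  exact h2.trans h3

theorem rpow_neg_le_half (v : HeightOneSpectrum (𝓞 F)) {s : ℝ} (hs : 1 ≤ s) :
    (Ideal.absNorm v.asIdeal : ℝ) ^ (-s) ≤ 1 / 2 := by
  refine (rpow_neg_le_rpow_neg_one F v hs).trans ?_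
  have h0 : Ideal.absNorm v.asIdeal ≠ 0 := by
    rw [Ne, Ideal.absNorm_eq_zero_iff]; exact v.ne_bot
  have h1 : Ideal.absNorm v.asIdeal ≠ 1 := by
    rw [Ne, Ideal.absNorm_eq_one_iff]; exact v.isPrime.ne_top
  have h2 : (2 : ℝ) ≤ (Ideal.absNorm v.asIdeal : ℝ) := by
    have : 2 ≤ Ideal.absNorm v.asIdeal := by omega
    exact_mod_cast this
  rw [Real.rpow_neg_one, one_div]
  exact inv_anti₀ (by norm_num) h2

/-- Euler factors of the primes of non-prime norm: uniformly bounded product. -/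
theorem prod_nonPrimeNorm_inv_one_sub_le {s : ℝ} (hs : 1 ≤ s)
    (T : Finset (HeightOneSpectrum (𝓞 F))) :
    ∏ v ∈ T with ¬ (Ideal.absNorm v.asIdeal).Prime,
      (1 - (Ideal.absNorm v.asIdeal : ℝ) ^ (-s))⁻¹ ≤ Real.exp (2 * c1 F) := by
  classical
  calc ∏ v ∈ T with ¬ (Ideal.absNorm v.asIdeal).Prime,
        (1 - (Ideal.absNorm v.asIdeal : ℝ) ^ (-s))⁻¹
      ≤ ∏ v ∈ T with ¬ (Ideal.absNorm v.asIdeal).Prime,
          Real.exp (2 * (Ideal.absNorm v.asIdeal : ℝ) ^ (-s)) := by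
        refine Finset.prod_le_prod (fun v _ => ?_) (fun v _ => ?_)
        · have := rpow_neg_le_half F v hs
          have h1 : (0 : ℝ) < 1 - (Ideal.absNorm v.asIdeal : ℝ) ^ (-s) := by linarith
          exact (inv_pos.2 h1).le
        · exact inv_one_sub_le_exp (rpow_neg_nonneg F v s) (rpow_neg_le_half F v hs)
    _ = Real.exp (2 * ∑ v ∈ T with ¬ (Ideal.absNorm v.asIdeal).Prime,
          (Ideal.absNorm v.asIdeal : ℝ) ^ (-s)) := by
        rw [← Real.exp_sum, Finset.mul_sum]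
    _ ≤ Real.exp (2 * c1 F) := by
        apply Real.exp_le_exp.2
        have := sum_nonPrimeNorm_rpow_le F hs T
        linarith

theorem c1_nonneg : 0 ≤ c1 F :=
  tsum_nonneg fun v => rpow_neg_nonneg F v.1 1

end Fermat.Agent.S14Z
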