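/-
S14Z (shared zeta-pole block of the S14 teams), part (Z): the zeta-pole theorem.

For number fields `F`, `M` and `n ≥ 2`: if `S` is a set of primes of `F` each of which has `n`
primes of `M` of the same norm attached to it (injectively), then infinitely many primes of `F`
of PRIME norm lie outside `S` (and outside any prescribed finite set).  In particular
(`exists_prime_not_split`): for `Algebra (𝓞 F) (𝓞 M)` there are infinitely many primes `v` of `F`
of prime norm over which there are NOT `n` distinct primes of `M` of norm `N v`.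
Quantitative form (`quant`, `quant_splitSet`): those primes carry at least the proportion
`1 - 1/n` of the pole: `(1 - 1/n) * log (1/(s-1)) - C ≤ ∑ N v ^ (-s)` as `s → 1+`.

Inputs: `S14A/ZetaIdeal.lean` (helper51: Euler-product inequalities and the pole of `zetaR`),
`S14Z/NonPrimeNorm.lean` ((Z4)).
-/
import Mathlib
import Fermat.Agent.S14A.ZetaIdeal
import Fermat.Agent.S14Z.NonPrimeNorm

set_option autoImplicit false

namespace Fermat.Agent.S14Z

open IsDedekindDomain Filter Topology NumberField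
open Fermat.Agent.S14A

variable (F : Type*) [Field F] [NumberField F]

/-! ### (Z-quant) and (Z): primes that do not split into `n` primes of the same norm -/

variable (M : Type*) [Field M] [NumberField M]

/-- the "good" primes: prime norm, outside `S`, outside the finite set `T₀`. -/
def goodSet (S : Set (HeightOneSpectrum (𝓞 F))) (T₀ : Finset (HeightOneSpectrum (𝓞 F))) :
    Set (HeightOneSpectrum (𝓞 F)) :=
  {v | (Ideal.absNorm v.asIdeal).Prime ∧ v ∉ S ∧ v ∉ T₀}

variable {F M}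

/-- if every prime of `S` has `n` primes of `M` of the same norm attached to it (injectively),
then `n * ∑_{v ∈ S} N v ^ (-s) ≤ ∑_w N w ^ (-s)`. -/
theorem mul_tsum_le_tsum {n : ℕ} {S : Set (HeightOneSpectrum (𝓞 F))}
    (φ : S × Fin n → HeightOneSpectrum (𝓞 M)) (hφ : Function.Injective φ)
    (hN : ∀ x, Ideal.absNorm (φ x).asIdeal = Ideal.absNorm x.1.1.asIdeal) {s : ℝ} (hs : 1 < s) :
    (n : ℝ) * ∑' v : S, (Ideal.absNorm v.1.asIdeal : ℝ) ^ (-s) ≤
      ∑' w : HeightOneSpectrum (𝓞 M), (Ideal.absNorm w.asIdeal : ℝ) ^ (-s) := by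
  classical
  have hsumF : Summable (fun v : HeightOneSpectrum (𝓞 F) => (Ideal.absNorm v.asIdeal : ℝ) ^ (-s)) :=
    summable_prime_rpow F hs
  have hsumM : Summable (fun w : HeightOneSpectrum (𝓞 M) => (Ideal.absNorm w.asIdeal : ℝ) ^ (-s)) :=
    summable_prime_rpow M hs
  have hsumS : Summable (fun v : S => (Ideal.absNorm v.1.asIdeal : ℝ) ^ (-s)) :=
    hsumF.subtype S
  rw [← tsum_mul_left]
  refine (hsumS.mul_left (n : ℝ)).tsum_le_of_sum_le fun u => ?_
  calc ∑ v ∈ u, (n : ℝ) * (Ideal.absNorm v.1.asIdeal : ℝ) ^ (-s)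
      = ∑ x ∈ u ×ˢ (Finset.univ : Finset (Fin n)), (Ideal.absNorm x.1.1.asIdeal : ℝ) ^ (-s) := by
        rw [Finset.sum_product]
        refine Finset.sum_congr rfl fun v _ => ?_
        simp only [Finset.sum_const, Finset.card_univ, Fintype.card_fin, nsmul_eq_mul]
    _ = ∑ x ∈ u ×ˢ (Finset.univ : Finset (Fin n)), (Ideal.absNorm (φ x).asIdeal : ℝ) ^ (-s) := by
        refine Finset.sum_congr rfl fun x _ => ?_
        rw [hN x]
    _ = ∑ w ∈ (u ×ˢ (Finset.univ : Finset (Fin n))).image φ, (Ideal.absNorm w.asIdeal : ℝ) ^ (-s) := by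
        rw [Finset.sum_image (fun x _ y _ h => hφ h)]
    _ ≤ ∑' w : HeightOneSpectrum (𝓞 M), (Ideal.absNorm w.asIdeal : ℝ) ^ (-s) :=
        hsumM.sum_le_tsum _ (fun w _ => rpow_neg_nonneg M w s)

/-- (Z-quant): the good primes carry at least the proportion `1 - 1/n` of the pole. -/
theorem quant {n : ℕ} (hn : 1 ≤ n) {S : Set (HeightOneSpectrum (𝓞 F))}
    (φ : S × Fin n → HeightOneSpectrum (𝓞 M)) (hφ : Function.Injective φ)
    (hN : ∀ x, Ideal.absNorm (φ x).asIdeal = Ideal.absNorm x.1.1.asIdeal)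
    (T₀ : Finset (HeightOneSpectrum (𝓞 F))) :
    ∃ C : ℝ, ∀ᶠ s in 𝓝[>] (1 : ℝ),
      (1 - 1 / (n : ℝ)) * Real.log (1 / (s - 1)) - C ≤
        ∑' v : goodSet F S T₀, (Ideal.absNorm v.1.asIdeal : ℝ) ^ (-s) := by
  classical
  obtain ⟨c, hc⟩ := log_zetaR_le F
  obtain ⟨cF, CF, hcF, hF⟩ := zetaR_pole F
  obtain ⟨cM, CM, hcM, hM⟩ := zetaR_pole M
  refine ⟨-(Real.log cF - 1 / (n : ℝ) * Real.log CM - c1 F - c - T₀.card), ?_⟩
  filter_upwards [hF, hM, self_mem_nhdsWithin] with s hsF hsM hs1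
  have hs : (1 : ℝ) < s := hs1
  have hs0 : 0 < s - 1 := by linarith
  have hnpos : (0 : ℝ) < n := by exact_mod_cast hn
  set f : HeightOneSpectrum (𝓞 F) → ℝ := fun v => (Ideal.absNorm v.asIdeal : ℝ) ^ (-s) with hf
  have hf0 : ∀ v, 0 ≤ f v := fun v => rpow_neg_nonneg F v s
  have hsumF : Summable f := summable_prime_rpow F hs
  -- Step A
  have hpt : ∀ v, f v ≤ S.indicator f v + (goodSet F S T₀).indicator f v +
      (nonPrimeNorm F).indicator f v + (T₀ : Set (HeightOneSpectrum (𝓞 F))).indicator f v := by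
    intro v
    have e1 := Set.indicator_nonneg (s := S) (f := f) (fun v _ => hf0 v) v
    have e2 := Set.indicator_nonneg (s := goodSet F S T₀) (f := f) (fun v _ => hf0 v) v
    have e3 := Set.indicator_nonneg (s := nonPrimeNorm F) (f := f) (fun v _ => hf0 v) v
    have e4 := Set.indicator_nonneg (s := (T₀ : Set (HeightOneSpectrum (𝓞 F)))) (f := f)
      (fun v _ => hf0 v) v
    by_cases h1 : v ∈ S
    · rw [Set.indicator_of_mem h1]; linarith
    · by_cases h2 : v ∈ T₀
      · have : v ∈ (T₀ : Set (HeightOneSpectrum (𝓞 F))) := h2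
        rw [Set.indicator_of_mem this]; linarith
      · by_cases h3 : (Ideal.absNorm v.asIdeal).Prime
        · have : v ∈ goodSet F S T₀ := ⟨h3, h1, h2⟩
          rw [Set.indicator_of_mem this]; linarith
        · have : v ∈ nonPrimeNorm F := h3
          rw [Set.indicator_of_mem this]; linarith
  have hA : ∑' v, f v ≤ ∑' v : S, f v + ∑' v : goodSet F S T₀, f v +
      ∑' v : nonPrimeNorm F, f v + ∑' v : (T₀ : Set (HeightOneSpectrum (𝓞 F))), f v := by
    have h1 := hsumF.indicator S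
    have h2 := hsumF.indicator (goodSet F S T₀)
    have h3 := hsumF.indicator (nonPrimeNorm F)
    have h4 := hsumF.indicator (T₀ : Set (HeightOneSpectrum (𝓞 F)))
    have := hsumF.tsum_le_tsum hpt (((h1.add h2).add h3).add h4)
    rw [((h1.add h2).add h3).tsum_add h4, (h1.add h2).tsum_add h3, h1.tsum_add h2] at this
    simpa only [tsum_subtype] using this
  have hT0 : ∑' v : (T₀ : Set (HeightOneSpectrum (𝓞 F))), f v ≤ T₀.card := by
    rw [Finset.tsum_subtype' T₀ f]
    calc ∑ v ∈ T₀, f v ≤ ∑ _v ∈ T₀, (1 : ℝ) :=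
          Finset.sum_le_sum fun v _ => rpow_neg_le_one F v (by linarith)
      _ = T₀.card := by simp
  have hNP : ∑' v : nonPrimeNorm F, f v ≤ c1 F := tsum_nonPrimeNorm_le F hs.le
  -- Step B, C
  have hB : Real.log (zetaR F s) ≤ ∑' v, f v + c := hc s hs
  have hC : (n : ℝ) * ∑' v : S, f v ≤ Real.log (zetaR M s) :=
    (mul_tsum_le_tsum φ hφ hN hs).trans (tsum_prime_le_log_zetaR M hs)
  have hC' : ∑' v : S, f v ≤ 1 / (n : ℝ) * Real.log (zetaR M s) := by
    rw [one_div, ← div_eq_inv_mul, le_div_iff₀ hnpos]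
    linarith
  -- Step D
  have hD1 : Real.log cF - Real.log (s - 1) ≤ Real.log (zetaR F s) := by
    rw [← Real.log_div hcF.ne' hs0.ne']
    exact Real.log_le_log (div_pos hcF hs0) hsF.1
  have hMpos : 0 < zetaR M s := lt_of_lt_of_le (div_pos hcM hs0) hsM.1
  have hCM : 0 < CM := by
    have := lt_of_lt_of_le hMpos hsM.2
    by_contra h
    have h' : CM ≤ 0 := not_lt.1 h
    have := div_nonpos_of_nonpos_of_nonneg h' hs0.le
    linarith
  have hD2 : Real.log (zetaR M s) ≤ Real.log CM - Real.log (s - 1) := by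
    rw [← Real.log_div hCM.ne' hs0.ne']
    exact Real.log_le_log hMpos hsM.2
  have hlog : Real.log (1 / (s - 1)) = - Real.log (s - 1) := by
    rw [one_div, Real.log_inv]
  rw [hlog]
  have hC'' : ∑' v : S, f v ≤ 1 / (n : ℝ) * (Real.log CM - Real.log (s - 1)) :=
    hC'.trans (mul_le_mul_of_nonneg_left hD2 (by positivity))
  have key : ∑' v : goodSet F S T₀, f v ≥ Real.log cF - Real.log (s - 1) - c
      - 1 / (n : ℝ) * (Real.log CM - Real.log (s - 1)) - c1 F - T₀.card := by linarith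
  have : (1 - 1 / (n : ℝ)) * -Real.log (s - 1) -
      -(Real.log cF - 1 / (n : ℝ) * Real.log CM - c1 F - c - T₀.card) =
      Real.log cF - Real.log (s - 1) - c
      - 1 / (n : ℝ) * (Real.log CM - Real.log (s - 1)) - c1 F - T₀.card := by ring
  rw [this]
  exact key

theorem tendsto_log_one_div_sub_one :
    Tendsto (fun s : ℝ => Real.log (1 / (s - 1))) (𝓝[>] (1 : ℝ)) atTop := by
  have h1 : Tendsto (fun s : ℝ => s - 1) (𝓝[>] (1 : ℝ)) (𝓝[>] (0 : ℝ)) := by
    rw [tendsto_nhdsWithin_iff]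
    constructor
    · have : Tendsto (fun s : ℝ => s - 1) (𝓝 (1 : ℝ)) (𝓝 (1 - 1)) := tendsto_id.sub_const 1
      rw [sub_self] at this
      exact this.mono_left nhdsWithin_le_nhds
    · filter_upwards [self_mem_nhdsWithin] with s hs
      have : (1 : ℝ) < s := hs
      exact Set.mem_Ioi.2 (by linarith)
  have h2 : Tendsto (fun s : ℝ => (s - 1)⁻¹) (𝓝[>] (1 : ℝ)) atTop :=
    tendsto_inv_nhdsGT_zero.comp h1
  have h3 := Real.tendsto_log_atTop.comp h2
  refine h3.congr fun s => ?_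
  simp [one_div]

/-- (Z), abstract form: if the primes of `S` each have `n ≥ 2` primes of `M` of the same norm
attached injectively, then infinitely many primes of `F` of prime norm lie outside `S`
(and outside any prescribed finite set `T₀`). -/
theorem infinite_goodSet {n : ℕ} (hn : 2 ≤ n) {S : Set (HeightOneSpectrum (𝓞 F))}
    (φ : S × Fin n → HeightOneSpectrum (𝓞 M)) (hφ : Function.Injective φ)
    (hN : ∀ x, Ideal.absNorm (φ x).asIdeal = Ideal.absNorm x.1.1.asIdeal)
    (T₀ : Finset (HeightOneSpectrum (𝓞 F))) : (goodSet F S T₀).Infinite := by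
  classical
  intro hfin
  obtain ⟨C, hC⟩ := quant (by omega : 1 ≤ n) φ hφ hN T₀
  have hfac : (0 : ℝ) < 1 - 1 / (n : ℝ) := by
    have h2 : (2 : ℝ) ≤ n := by exact_mod_cast hn
    have : 1 / (n : ℝ) ≤ 1 / 2 := one_div_le_one_div_of_le (by norm_num) h2
    linarith
  set K : ℝ := (hfin.toFinset.card : ℝ) with hK
  have hbig : ∀ᶠ s in 𝓝[>] (1 : ℝ), (K + C) / (1 - 1 / (n : ℝ)) < Real.log (1 / (s - 1)) :=
    tendsto_log_one_div_sub_one.eventually_gt_atTop _
  obtain ⟨s, ⟨hs1, hs2⟩, hs3⟩ := ((hC.and hbig).and self_mem_nhdsWithin).exists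
  have hs : (1 : ℝ) < s := hs3
  have hle : ∑' v : goodSet F S T₀, (Ideal.absNorm v.1.asIdeal : ℝ) ^ (-s) ≤ K := by
    rw [← Set.Finite.coe_toFinset hfin,
      Finset.tsum_subtype' hfin.toFinset (fun v => (Ideal.absNorm v.asIdeal : ℝ) ^ (-s))]
    calc ∑ v ∈ hfin.toFinset, (Ideal.absNorm v.asIdeal : ℝ) ^ (-s)
        ≤ ∑ _v ∈ hfin.toFinset, (1 : ℝ) :=
          Finset.sum_le_sum fun v _ => rpow_neg_le_one F v (by linarith)
      _ = K := by simp [hK]
  rw [div_lt_iff₀ hfac] at hs2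
  linarith

variable (F M)

/-- the primes `v` of `F` over which there are `n` distinct primes of `M` with the same norm. -/
def splitSet [Algebra (𝓞 F) (𝓞 M)] (n : ℕ) : Set (HeightOneSpectrum (𝓞 F)) :=
  {v | ∃ t : Finset (HeightOneSpectrum (𝓞 M)), t.card = n ∧ ∀ w ∈ t,
    w.asIdeal.comap (algebraMap (𝓞 F) (𝓞 M)) = v.asIdeal ∧
      Ideal.absNorm w.asIdeal = Ideal.absNorm v.asIdeal}

/-- the injection attached to `splitSet`. -/
theorem exists_splitSet_map [Algebra (𝓞 F) (𝓞 M)] (n : ℕ) :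
    ∃ φ : splitSet F M n × Fin n → HeightOneSpectrum (𝓞 M), Function.Injective φ ∧
      ∀ x, Ideal.absNorm (φ x).asIdeal = Ideal.absNorm x.1.1.asIdeal := by
  classical
  choose t ht1 ht2 using fun v : splitSet F M n => v.2
  let e : ∀ v : splitSet F M n, Fin n ≃ t v := fun v => (Finset.equivFinOfCardEq (ht1 v)).symm
  refine ⟨fun x => (e x.1 x.2).1, ?_, fun x => (ht2 x.1 _ (e x.1 x.2).2).2⟩
  rintro ⟨v, i⟩ ⟨v', i'⟩ h
  simp only at h
  have h1 := (ht2 v _ (e v i).2).1
  have h2 := (ht2 v' _ (e v' i').2).1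
  rw [h] at h1
  have hv : v = v' := Subtype.ext (HeightOneSpectrum.ext (h1.symm.trans h2))
  subst hv
  have : e v i = e v i' := Subtype.ext h
  rw [(e v).injective this]

/-- (Z-quant), `comap` form. -/
theorem quant_splitSet [Algebra (𝓞 F) (𝓞 M)] {n : ℕ} (hn : 1 ≤ n)
    (T₀ : Finset (HeightOneSpectrum (𝓞 F))) :
    ∃ C : ℝ, ∀ᶠ s in 𝓝[>] (1 : ℝ),
      (1 - 1 / (n : ℝ)) * Real.log (1 / (s - 1)) - C ≤
        ∑' v : goodSet F (splitSet F M n) T₀, (Ideal.absNorm v.1.asIdeal : ℝ) ^ (-s) := by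
  obtain ⟨φ, hφ, hN⟩ := exists_splitSet_map F M n
  exact quant hn φ hφ hN T₀

/-- (Z), `comap` form: infinitely many primes of prime norm do not split into `n ≥ 2` primes of
the same norm. -/
theorem infinite_goodSet_splitSet [Algebra (𝓞 F) (𝓞 M)] {n : ℕ} (hn : 2 ≤ n)
    (T₀ : Finset (HeightOneSpectrum (𝓞 F))) : (goodSet F (splitSet F M n) T₀).Infinite := by
  obtain ⟨φ, hφ, hN⟩ := exists_splitSet_map F M n
  exact infinite_goodSet hn φ hφ hN T₀

/-- (Z), "avoid a finite set" form. -/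
theorem exists_prime_not_split [Algebra (𝓞 F) (𝓞 M)] {n : ℕ} (hn : 2 ≤ n)
    (T₀ : Finset (HeightOneSpectrum (𝓞 F))) :
    ∃ v : HeightOneSpectrum (𝓞 F), v ∉ T₀ ∧ (Ideal.absNorm v.asIdeal).Prime ∧
      ¬ ∃ t : Finset (HeightOneSpectrum (𝓞 M)), t.card = n ∧ ∀ w ∈ t,
        w.asIdeal.comap (algebraMap (𝓞 F) (𝓞 M)) = v.asIdeal ∧
          Ideal.absNorm w.asIdeal = Ideal.absNorm v.asIdeal := by
  obtain ⟨v, hv1, hv2, hv3⟩ := (infinite_goodSet_splitSet F M hn T₀).nonempty
  exact ⟨v, hv3, hv1, hv2⟩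

end Fermat.Agent.S14Z
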