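/-
S14Z (shared zeta-pole block of the S14 teams), Kummer form (Z-K) of the zeta-pole theorem.

`exists_prime_nonresidue`: if `a ∈ 𝓞 K` is not a `p`-th power in a number field `K ∋ ζ_p`, then
outside any finite set of primes there is a prime `v` of `K` of PRIME norm, `v ∤ p·a`, modulo
which `a` is not a `p`-th power.

Inputs: `S14Z/ZetaPole.lean` ((Z)), `S14A/KummerField.lean` (the field `K(a^{1/p})`),
`S14A/KummerSplit.lean` (residue ⇒ `p` primes of the same norm above).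
-/
import Mathlib
import Fermat.Agent.S14Z.ZetaPole
import Fermat.Agent.S14A.KummerField
import Fermat.Agent.S14A.KummerSplit

set_option autoImplicit false

namespace Fermat.Agent.S14Z

open IsDedekindDomain Filter Topology NumberField
open Fermat.Agent.S14A

/-- the primes containing a given nonzero element form a finite set. -/
theorem finite_primes_mem {K : Type*} [Field K] [NumberField K] (b : 𝓞 K) (hb : b ≠ 0) :
    {v : HeightOneSpectrum (𝓞 K) | b ∈ v.asIdeal}.Finite := by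
  have h0 : Ideal.span {b} ≠ (0 : Ideal (𝓞 K)) := by
    rw [Ne, Ideal.zero_eq_bot, Ideal.span_singleton_eq_bot]; exact hb
  refine (Ideal.finite_factors h0).subset fun v hv => ?_
  rw [Set.mem_ofPred_eq, Ideal.dvd_iff_le, Ideal.span_singleton_le_iff_mem]
  exact hv

/-- the primes whose norm lies in a given finite set of integers form a finite set. -/
theorem finite_primes_absNorm_mem {K : Type*} [Field K] [NumberField K] (T : Finset ℕ) :
    {v : HeightOneSpectrum (𝓞 K) | Ideal.absNorm v.asIdeal ∈ T}.Finite := by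
  have hfin : {I : Ideal (𝓞 K) | Ideal.absNorm I ∈ T}.Finite := by
    have : {I : Ideal (𝓞 K) | Ideal.absNorm I ∈ T} =
        ⋃ n ∈ T, {I : Ideal (𝓞 K) | Ideal.absNorm I = n} := by
      ext I; simp
    rw [this]
    exact Set.Finite.biUnion T.finite_toSet fun n _ => Ideal.finite_setOfPred_absNorm_eq n
  refine Set.Finite.of_finite_image (f := fun v : HeightOneSpectrum (𝓞 K) => v.asIdeal)
    (hfin.subset ?_) (fun v _ w _ h => HeightOneSpectrum.ext h)
  rintro _ ⟨v, hv, rfl⟩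
  exact hv

/-- (Z-K), the Kummer form of the zeta-pole theorem: if `a` is not a `p`-th power in a number
field `K ∋ ζ_p`, then outside any finite set there is a prime `v` of `K` of prime norm,
`v ∤ p·a`, modulo which `a` is not a `p`-th power. -/
theorem exists_prime_nonresidue {p : ℕ} (hp : p.Prime) (K : Type) [Field K] [NumberField K]
    (ζ a : 𝓞 K) (hζ : IsPrimitiveRoot ζ p) (ha : ¬ ∃ x : K, x ^ p = (a : K))
    (T₀ : Finset (HeightOneSpectrum (𝓞 K))) :
    ∃ v : HeightOneSpectrum (𝓞 K), v ∉ T₀ ∧ (Ideal.absNorm v.asIdeal).Prime ∧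
      (p : 𝓞 K) ∉ v.asIdeal ∧ a ∉ v.asIdeal ∧ ¬ ∃ x : 𝓞 K, x ^ p - a ∈ v.asIdeal := by
  classical
  obtain ⟨M, _, _, _, θ, σ, hdeg, hθ, hσ⟩ := exists_kummer_field hp K ζ a hζ ha
  have ha0 : a ≠ 0 := by
    rintro rfl
    exact ha ⟨0, by simp [hp.ne_zero]⟩
  have hp0 : (p : 𝓞 K) ≠ 0 := by exact_mod_cast hp.ne_zero
  have hfin := finite_primes_mem ((p : 𝓞 K) * a) (mul_ne_zero hp0 ha0)
  obtain ⟨v, hvT, hvN, hvs⟩ := exists_prime_not_split K M hp.two_le (T₀ ∪ hfin.toFinset)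
  rw [Finset.mem_union, not_or] at hvT
  have hpa : (p : 𝓞 K) * a ∉ v.asIdeal := fun h => hvT.2 (by simpa using h)
  have hvp : (p : 𝓞 K) ∉ v.asIdeal := fun h => hpa (Ideal.mul_mem_right _ _ h)
  have hva : a ∉ v.asIdeal := fun h => hpa (Ideal.mul_mem_left _ _ h)
  refine ⟨v, hvT.1, hvN, hvp, hva, ?_⟩
  rintro ⟨x, hx⟩
  obtain ⟨f, hf, hfN⟩ := exists_split_primes hp K M hdeg ζ a hζ θ hθ σ hσ v hvN hvp hva x hx
  apply hvs
  refine ⟨Finset.univ.map ⟨f, hf⟩, by simp, ?_⟩
  intro w hw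
  obtain ⟨j, -, rfl⟩ := Finset.mem_map.1 hw
  exact ⟨(hfN j).2, (hfN j).1⟩

/-- (Z-K) with the excluded primes given by a finite set of forbidden norms. -/
theorem exists_prime_nonresidue_norm {p : ℕ} (hp : p.Prime) (K : Type) [Field K] [NumberField K]
    (ζ a : 𝓞 K) (hζ : IsPrimitiveRoot ζ p) (ha : ¬ ∃ x : K, x ^ p = (a : K)) (T : Finset ℕ) :
    ∃ v : HeightOneSpectrum (𝓞 K), Ideal.absNorm v.asIdeal ∉ T ∧
      (Ideal.absNorm v.asIdeal).Prime ∧ Ideal.absNorm v.asIdeal ≠ p ∧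
      (p : 𝓞 K) ∉ v.asIdeal ∧ a ∉ v.asIdeal ∧ ¬ ∃ x : 𝓞 K, x ^ p - a ∈ v.asIdeal := by
  classical
  obtain ⟨v, hvT, hvN, hvp, hva, hres⟩ :=
    exists_prime_nonresidue hp K ζ a hζ ha (finite_primes_absNorm_mem (K := K) T).toFinset
  refine ⟨v, fun h => hvT (by simpa using h), hvN, ?_, hvp, hva, hres⟩
  intro h
  apply hvp
  rw [← h]
  exact Ideal.absNorm_mem v.asIdeal

end Fermat.Agent.S14Z
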