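/-
S14Z: (Z) in the consumer form `ZSym p` of the crossing hedge (`S14C/XDefs.lean`), from the
Kummer form `exists_prime_nonresidue_norm` and the leaf `SymZero p` of `S14C/Cross/Plan.lean`.
-/
import Mathlib
import Fermat.Agent.S14Z.ZetaKummer
import Fermat.Agent.S14C.Cross.Plan

set_option autoImplicit false

namespace Fermat.Agent.S14Z

open IsDedekindDomain NumberField
open Fermat.Agent.S14C Fermat.Agent.S14C.Cross

/-- (Z) in the consumer form of the crossing hedge. -/
theorem zSym {p : ℕ} [Fact p.Prime] (hS : SymZero p) : ZSym p := by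
  intro F _ _ ζ a hζ ha T
  have hp : p.Prime := Fact.out
  have ha' : ¬ ∃ x : F, x ^ p = (a : F) := fun ⟨x, hx⟩ => ha ⟨x, hx.symm⟩
  obtain ⟨v, hvT, hvN, hvne, hvp, hva, hres⟩ := exists_prime_nonresidue_norm hp F ζ a hζ ha' T
  refine ⟨v.asIdeal, Ideal.absNorm v.asIdeal, v.isPrime, v.ne_bot, hvN, rfl, hvT, hvne, hva, ?_⟩
  intro h0
  obtain ⟨y, hy⟩ := hS F ζ a v.asIdeal hζ v.isPrime v.ne_bot hvp hva h0
  apply hres
  refine ⟨y, ?_⟩
  have := v.asIdeal.neg_mem hy
  rwa [neg_sub] at this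

end Fermat.Agent.S14Z
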