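/-
S14Z (shared zeta-pole block of the S14 teams): the TWO-ELEMENT Kummer forms of the zeta-pole
theorem.

* `kummer_pow_mem` : Kummer lemma — in `M = K(θ)`, `θ ^ p = a`, `[M : K] = p`, `ζ_p ∈ K`:
  if `b ∈ K` is a `p`-th power in `M` then `b = a ^ k * x ^ p` with `x ∈ K`.
* `comap_of_absNorm_prime` : a prime `Q` of `𝓞 M` of prime norm has the same residue field as
  the prime `Q ∩ 𝓞 K` below it.
* `exists_prime_residue_nonresidue` (Z-K2): if `b ∉ a ^ k · K ^ p` for all `k`, there is a prime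
  of prime norm (outside any finite set of norms) at which `a` IS a `p`-th power residue and
  `b` is NOT.
* `exists_prime_nonresidue_pair` (Z-K2'): two non-`p`-th powers have a common prime of prime
  norm at which both are non-residues.
-/
import Mathlib
import Fermat.Agent.S14Z.ZetaKummer

set_option autoImplicit false

namespace Fermat.Agent.S14Z

open IsDedekindDomain NumberField
open Fermat.Agent.S14A

/-! ### Kummer lemma -/

theorem kummer_pow_mem {p : ℕ} (hp : p.Prime) {K M : Type*} [Field K] [Field M] [Algebra K M]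
    (hdeg : Module.finrank K M = p) (ζ a : K) (hζ : IsPrimitiveRoot ζ p)
    (θ : M) (hθ : θ ^ p = algebraMap K M a) (ha0 : a ≠ 0)
    (σ : M ≃ₐ[K] M) (hσ : σ θ = algebraMap K M ζ * θ)
    (b : K) (hb0 : b ≠ 0) (β : M) (hβ : β ^ p = algebraMap K M b) :
    ∃ (k : ℕ) (x : K), b = a ^ k * x ^ p := by
  have hinj : Function.Injective (algebraMap K M) := (algebraMap K M).injective
  have : NeZero p := ⟨hp.ne_zero⟩
  have hθ0 : θ ≠ 0 := by
    rintro rfl
    rw [zero_pow hp.ne_zero] at hθ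
    exact ha0 (hinj (by rw [← hθ, map_zero]))
  have hβ0 : β ≠ 0 := by
    rintro rfl
    rw [zero_pow hp.ne_zero] at hβ
    exact hb0 (hinj (by rw [← hβ, map_zero]))
  have hζM : IsPrimitiveRoot (algebraMap K M ζ) p := hζ.map_of_injective hinj
  -- `σ β = ζ ^ i * β`
  have h1 : (σ β / β) ^ p = 1 := by
    rw [div_pow, ← map_pow, hβ, AlgEquiv.commutes, div_self]
    rw [← hβ]; exact pow_ne_zero _ hβ0
  obtain ⟨i, -, hi⟩ := hζM.eq_pow_of_pow_eq_one h1
  have hσβ : σ β = algebraMap K M ζ ^ i * β := by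
    rw [hi, div_mul_cancel₀ _ hβ0]
  -- `w = β / θ ^ i` is fixed by `σ`
  set w : M := β / θ ^ i with hw
  have hσw : σ w = w := by
    rw [hw, map_div₀, map_pow, hσβ, hσ, mul_pow]
    have hz : algebraMap K M ζ ^ i ≠ 0 := pow_ne_zero _ (hζM.ne_zero hp.ne_zero)
    rw [mul_div_mul_left _ _ hz]
  -- the fixed field of `σ`
  let L : IntermediateField K M :=
    (AlgHom.equalizer (σ : M →ₐ[K] M) (AlgHom.id K M)).toIntermediateField (fun x hx => by
      rw [AlgHom.mem_equalizer] at hx ⊢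
      simp only [AlgEquiv.coe_toAlgHom, AlgHom.coe_id, id_eq] at hx ⊢
      rw [map_inv₀, hx])
  have hmemL : ∀ x : M, x ∈ L ↔ σ x = x := by
    intro x
    change x ∈ AlgHom.equalizer (σ : M →ₐ[K] M) (AlgHom.id K M) ↔ _
    rw [AlgHom.mem_equalizer]
    simp
  have : IsSimpleOrder (IntermediateField K M) :=
    IntermediateField.isSimpleOrder_of_finrank_prime K M (hdeg ▸ hp)
  have hLtop : L ≠ ⊤ := by
    intro h
    have hθL : θ ∈ L := h ▸ IntermediateField.mem_top
    rw [hmemL, hσ] at hθL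
    have : algebraMap K M ζ = 1 := by
      have := mul_right_cancel₀ hθ0 (hθL.trans (one_mul θ).symm)
      exact this
    exact hζM.ne_one hp.one_lt this
  have hLbot : L = ⊥ := (eq_bot_or_eq_top L).resolve_right hLtop
  have hwL : w ∈ L := (hmemL w).2 hσw
  rw [hLbot, IntermediateField.mem_bot] at hwL
  obtain ⟨x, hx⟩ := hwL
  refine ⟨i, x, hinj ?_⟩
  have hβw : β = w * θ ^ i := by rw [hw, div_mul_cancel₀ _ (pow_ne_zero _ hθ0)]
  rw [← hβ, hβw, mul_pow, ← pow_mul, mul_comm i p, pow_mul, hθ, ← hx, map_mul, map_pow, map_pow,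
    mul_comm]

/-! ### Residue fields of primes of prime norm -/

theorem comap_of_absNorm_prime {K M : Type*} [Field K] [NumberField K] [Field M] [NumberField M]
    [Algebra K M] (Q : Ideal (𝓞 M)) (hQ : (Ideal.absNorm Q).Prime) :
    (Q.comap (algebraMap (𝓞 K) (𝓞 M))) ≠ ⊥ ∧
      Ideal.absNorm (Q.comap (algebraMap (𝓞 K) (𝓞 M))) = Ideal.absNorm Q ∧
      ∀ t : 𝓞 M, ∃ y : 𝓞 K, algebraMap (𝓞 K) (𝓞 M) y - t ∈ Q := by
  set v : Ideal (𝓞 K) := Q.comap (algebraMap (𝓞 K) (𝓞 M)) with hv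
  have hQtop : Q ≠ ⊤ := by
    intro h
    rw [h, Ideal.absNorm_top] at hQ
    exact Nat.not_prime_one hQ
  have hvtop : v ≠ ⊤ := by
    intro h
    apply hQtop
    rw [Ideal.eq_top_iff_one] at h ⊢
    have : algebraMap (𝓞 K) (𝓞 M) 1 ∈ Q := h
    simpa using this
  let φ : (𝓞 K ⧸ v) →+* (𝓞 M ⧸ Q) := Ideal.quotientMap Q (algebraMap (𝓞 K) (𝓞 M)) le_rfl
  have hφ : Function.Injective φ := Ideal.quotientMap_injective
  have hcardQ : Nat.card (𝓞 M ⧸ Q) = Ideal.absNorm Q := by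
    rw [Ideal.absNorm_apply, Submodule.cardQuot_apply]
  have hcardv : Nat.card (𝓞 K ⧸ v) = Ideal.absNorm v := by
    rw [Ideal.absNorm_apply, Submodule.cardQuot_apply]
  have hdvd : Nat.card (𝓞 K ⧸ v) ∣ Nat.card (𝓞 M ⧸ Q) :=
    AddSubgroup.card_dvd_of_injective φ.toAddMonoidHom hφ
  rw [hcardQ, hcardv] at hdvd
  have hv1 : Ideal.absNorm v ≠ 1 := by
    rw [Ne, Ideal.absNorm_eq_one_iff]; exact hvtop
  have hveq : Ideal.absNorm v = Ideal.absNorm Q :=
    ((Nat.dvd_prime hQ).1 hdvd).resolve_left hv1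
  refine ⟨?_, hveq, ?_⟩
  · intro h
    rw [h, Ideal.absNorm_bot] at hveq
    exact hQ.ne_zero hveq.symm
  · have : Finite (𝓞 M ⧸ Q) := Nat.finite_of_card_ne_zero (by rw [hcardQ]; exact hQ.ne_zero)
    have hbij : Function.Bijective φ :=
      hφ.bijective_of_nat_card_le (by rw [hcardQ, hcardv, hveq])
    intro t
    obtain ⟨y', hy'⟩ := hbij.2 (Ideal.Quotient.mk Q t)
    obtain ⟨y, rfl⟩ := Ideal.Quotient.mk_surjective y'
    refine ⟨y, ?_⟩
    rw [← Ideal.Quotient.eq]
    exact hy'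

/-! ### (Z-K2): `a` a residue, `b` a non-residue -/

/-- (Z-K2): if `b ∉ a ^ k · K ^ p` for every `k`, then there is a prime `v` of `K` of prime norm
(the norm outside any given finite set), `v ∤ p·a·b`, at which `a` IS a `p`-th power residue and
`b` is NOT. -/
theorem exists_prime_residue_nonresidue {p : ℕ} (hp : p.Prime) (K : Type) [Field K]
    [NumberField K] (ζ a b : 𝓞 K) (hζ : IsPrimitiveRoot ζ p) (ha0 : a ≠ 0)
    (hb : ∀ k : ℕ, ¬ ∃ x : K, (b : K) = (a : K) ^ k * x ^ p) (T : Finset ℕ) :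
    ∃ v : HeightOneSpectrum (𝓞 K), Ideal.absNorm v.asIdeal ∉ T ∧
      (Ideal.absNorm v.asIdeal).Prime ∧ Ideal.absNorm v.asIdeal ≠ p ∧
      (p : 𝓞 K) ∉ v.asIdeal ∧ a ∉ v.asIdeal ∧ b ∉ v.asIdeal ∧
      (∃ y : 𝓞 K, y ^ p - a ∈ v.asIdeal) ∧ ¬ ∃ x : 𝓞 K, x ^ p - b ∈ v.asIdeal := by
  classical
  have hb0 : b ≠ 0 := by
    rintro rfl
    exact hb 1 ⟨0, by simp [hp.ne_zero]⟩
  have hbK : ¬ ∃ x : K, x ^ p = (b : K) := fun ⟨x, hx⟩ => hb 0 ⟨x, by simp [hx]⟩
  by_cases haK : ∃ c : K, c ^ p = (a : K)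
  · -- `a` is a `p`-th power: only `b` matters
    obtain ⟨c, hc⟩ := haK
    have hcint : c ∈ integralClosure ℤ K :=
      IsIntegral.of_pow hp.pos (hc ▸ RingOfIntegers.isIntegral_coe a)
    obtain ⟨c', hc'eq⟩ : ∃ c' : 𝓞 K, (c' : K) = c := ⟨⟨c, hcint⟩, rfl⟩
    have hc' : c' ^ p = a := RingOfIntegers.ext (by
      change algebraMap (𝓞 K) K (c' ^ p) = algebraMap (𝓞 K) K a
      rw [map_pow]
      exact (congrArg (· ^ p) hc'eq).trans hc)
    obtain ⟨v, hvT, hvN, hvp, hvb, hres⟩ := exists_prime_nonresidue hp K ζ b hζ hbK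
      ((finite_primes_absNorm_mem (K := K) T).toFinset ∪ (finite_primes_mem a ha0).toFinset)
    rw [Finset.mem_union, not_or] at hvT
    refine ⟨v, fun h => hvT.1 (by simpa using h), hvN, ?_, hvp,
      fun h => hvT.2 (by simpa using h), hvb, ⟨c', by rw [hc', sub_self]; exact zero_mem _⟩,
      hres⟩
    intro h
    apply hvp
    rw [← h]
    exact Ideal.absNorm_mem v.asIdeal
  · -- main case: work over `M = K(a^(1/p))`
    obtain ⟨M, _, _, _, θ, σ, hdeg, hθ, hσ⟩ := exists_kummer_field hp K ζ a hζ haK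
    have hinj : Function.Injective (algebraMap (𝓞 K) (𝓞 M)) :=
      FaithfulSMul.algebraMap_injective (𝓞 K) (𝓞 M)
    have hζK : IsPrimitiveRoot (ζ : K) p :=
      hζ.map_of_injective (FaithfulSMul.algebraMap_injective (𝓞 K) K)
    have hζM : IsPrimitiveRoot (algebraMap (𝓞 K) (𝓞 M) ζ) p := hζ.map_of_injective hinj
    have hθ' : (θ : M) ^ p = algebraMap K M (a : K) := by
      have h := congrArg (algebraMap (𝓞 M) M) hθ
      rw [map_pow] at h
      exact h
    have ha0K : (a : K) ≠ 0 := by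
      intro h
      exact ha0 (RingOfIntegers.ext (by simpa using h))
    have hb0K : (b : K) ≠ 0 := by
      intro h
      exact hb0 (RingOfIntegers.ext (by simpa using h))
    have hbM : ¬ ∃ β : M, β ^ p = ((algebraMap (𝓞 K) (𝓞 M) b : 𝓞 M) : M) := by
      rintro ⟨β, hβ⟩
      have hβ' : β ^ p = algebraMap K M (b : K) := by
        rw [hβ]; rfl
      obtain ⟨k, x, hx⟩ := kummer_pow_mem hp hdeg (ζ : K) (a : K) hζK (θ : M) hθ' ha0K σ
        (by rw [hσ]; rfl) (b : K) hb0K β hβ'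
      exact hb k ⟨x, hx⟩
    have haM0 : algebraMap (𝓞 K) (𝓞 M) a ≠ 0 := by
      intro h
      exact ha0 (hinj (by rw [h, map_zero]))
    obtain ⟨Q, hQT, hQN, hQp, hQb, hQres⟩ := exists_prime_nonresidue hp M
      (algebraMap (𝓞 K) (𝓞 M) ζ) (algebraMap (𝓞 K) (𝓞 M) b) hζM hbM
      ((finite_primes_absNorm_mem (K := M) T).toFinset ∪
        (finite_primes_mem (algebraMap (𝓞 K) (𝓞 M) a) haM0).toFinset)
    rw [Finset.mem_union, not_or] at hQT
    have hQT1 : Ideal.absNorm Q.asIdeal ∉ T := fun h => hQT.1 (by simpa using h)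
    have hQa : algebraMap (𝓞 K) (𝓞 M) a ∉ Q.asIdeal := fun h => hQT.2 (by simpa using h)
    obtain ⟨hvbot, hvN, hrep⟩ := comap_of_absNorm_prime (K := K) Q.asIdeal hQN
    have hvprime : (Q.asIdeal.comap (algebraMap (𝓞 K) (𝓞 M))).IsPrime :=
      Ideal.comap_isPrime _ _
    let v : HeightOneSpectrum (𝓞 K) := ⟨Q.asIdeal.comap (algebraMap (𝓞 K) (𝓞 M)), hvprime, hvbot⟩
    have hvp : (p : 𝓞 K) ∉ v.asIdeal := by
      intro h
      apply hQp
      have : algebraMap (𝓞 K) (𝓞 M) (p : 𝓞 K) ∈ Q.asIdeal := h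
      simpa using this
    refine ⟨v, by rw [show Ideal.absNorm v.asIdeal = Ideal.absNorm Q.asIdeal from hvN]; exact hQT1,
      by rw [show Ideal.absNorm v.asIdeal = Ideal.absNorm Q.asIdeal from hvN]; exact hQN, ?_, hvp,
      hQa, hQb, ?_, ?_⟩
    · intro h
      apply hvp
      rw [← h]
      exact Ideal.absNorm_mem v.asIdeal
    · obtain ⟨y, hy⟩ := hrep θ
      refine ⟨y, ?_⟩
      change algebraMap (𝓞 K) (𝓞 M) (y ^ p - a) ∈ Q.asIdeal
      rw [map_sub, map_pow, ← hθ]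
      obtain ⟨c, hc⟩ := sub_dvd_pow_sub_pow (algebraMap (𝓞 K) (𝓞 M) y) θ p
      rw [hc]
      exact Ideal.mul_mem_right _ _ hy
    · rintro ⟨x, hx⟩
      apply hQres
      refine ⟨algebraMap (𝓞 K) (𝓞 M) x, ?_⟩
      have : algebraMap (𝓞 K) (𝓞 M) (x ^ p - b) ∈ Q.asIdeal := hx
      simpa using this

/-! ### (Z-K2'): two non-`p`-th powers have a common non-residue prime -/

/-- `p`-th power residues modulo an ideal, in terms of the quotient ring. -/
theorem exists_pow_sub_mem_iff {R : Type*} [CommRing R] (I : Ideal R) (p : ℕ) (a : R) :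
    (∃ z : R, z ^ p - a ∈ I) ↔ ∃ z : R ⧸ I, z ^ p = Ideal.Quotient.mk I a := by
  constructor
  · rintro ⟨z, hz⟩
    exact ⟨Ideal.Quotient.mk I z, by rw [← map_pow]; exact Ideal.Quotient.eq.2 hz⟩
  · rintro ⟨z, hz⟩
    obtain ⟨z, rfl⟩ := Ideal.Quotient.mk_surjective z
    exact ⟨z, by rw [← map_pow] at hz; exact Ideal.Quotient.eq.1 hz⟩

/-- in a field: if `x ^ e` is a `p`-th power and `p ∤ e`, then `x` is a `p`-th power. -/
theorem exists_pow_eq_of_pow_eq {k : Type*} [Field k] {p e : ℕ} (hp : p.Prime) (he : ¬ p ∣ e)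
    {x y : k} (hx : x ≠ 0) (h : x ^ e = y ^ p) : ∃ z : k, z ^ p = x := by
  have hcop : Nat.Coprime e p := ((Nat.Prime.coprime_iff_not_dvd hp).2 he).symm
  obtain ⟨s, -, hs⟩ := Nat.exists_mul_mod_eq_one_of_coprime hcop hp.one_lt
  obtain ⟨t, hst⟩ : ∃ t, e * s = 1 + p * t :=
    ⟨e * s / p, by have := Nat.div_add_mod (e * s) p; omega⟩
  refine ⟨y ^ s / x ^ t, ?_⟩
  have hxt : (x ^ t) ^ p ≠ 0 := pow_ne_zero _ (pow_ne_zero _ hx)
  rw [div_pow, div_eq_iff hxt, ← pow_mul, mul_comm s p, pow_mul, ← h, ← pow_mul, hst, pow_add,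
    pow_one, mul_comm p, pow_mul]

/-- residues of a product: if `a` and `a * b` are `p`-th power residues modulo a maximal ideal
not containing `a`, then so is `b`. -/
theorem exists_pow_sub_mem_of_mul {R : Type*} [CommRing R] (I : Ideal R) [hI : I.IsMaximal]
    {p : ℕ} (hp : p.Prime) {a b : R} (ha : a ∉ I) (h1 : ∃ x : R, x ^ p - a ∈ I)
    (h2 : ∃ y : R, y ^ p - a * b ∈ I) : ∃ z : R, z ^ p - b ∈ I := by
  let _ := Ideal.Quotient.field I
  rw [exists_pow_sub_mem_iff] at h1 h2 ⊢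
  obtain ⟨x, hx⟩ := h1
  obtain ⟨y, hy⟩ := h2
  have ha' : Ideal.Quotient.mk I a ≠ 0 := by
    rwa [Ne, Ideal.Quotient.eq_zero_iff_mem]
  have hx0 : x ≠ 0 := by
    rintro rfl
    rw [zero_pow hp.ne_zero] at hx
    exact ha' hx.symm
  refine ⟨y / x, ?_⟩
  rw [div_pow, hx, hy, map_mul, mul_div_cancel_left₀ _ ha']

/-- (Z-K2'): if neither `η` nor `u` is a `p`-th power in `K ∋ ζ_p`, there is a prime `v` of `K`
of prime norm (the norm outside any given finite set), `v ∤ p·η·u`, at which NEITHER `η` NOR `u`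
is a `p`-th power residue. -/
theorem exists_prime_nonresidue_pair {p : ℕ} (hp : p.Prime) (K : Type) [Field K]
    [NumberField K] (ζ η u : 𝓞 K) (hζ : IsPrimitiveRoot ζ p)
    (hη : ¬ ∃ x : K, x ^ p = (η : K)) (hu : ¬ ∃ x : K, x ^ p = (u : K)) (T : Finset ℕ) :
    ∃ v : HeightOneSpectrum (𝓞 K), Ideal.absNorm v.asIdeal ∉ T ∧
      (Ideal.absNorm v.asIdeal).Prime ∧ Ideal.absNorm v.asIdeal ≠ p ∧
      (p : 𝓞 K) ∉ v.asIdeal ∧ η ∉ v.asIdeal ∧ u ∉ v.asIdeal ∧
      (¬ ∃ x : 𝓞 K, x ^ p - η ∈ v.asIdeal) ∧ ¬ ∃ x : 𝓞 K, x ^ p - u ∈ v.asIdeal := by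
  classical
  have hη0 : η ≠ 0 := by
    rintro rfl
    exact hη ⟨0, by simp [hp.ne_zero]⟩
  have hu0 : u ≠ 0 := by
    rintro rfl
    exact hu ⟨0, by simp [hp.ne_zero]⟩
  have hη0K : (η : K) ≠ 0 := fun h => hη0 (RingOfIntegers.ext (by simpa using h))
  have hu0K : (u : K) ≠ 0 := fun h => hu0 (RingOfIntegers.ext (by simpa using h))
  by_cases hA : ∃ (e : ℕ) (w : 𝓞 K), ¬ p ∣ e ∧ u * η ^ e = w ^ p
  · -- case A: `u` is a power of `η` up to `p`-th powers
    obtain ⟨e, w, he, hw⟩ := hA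
    obtain ⟨v, hvT, hvN, hvp, hvη, hres⟩ := exists_prime_nonresidue hp K ζ η hζ hη
      ((finite_primes_absNorm_mem (K := K) T).toFinset ∪ (finite_primes_mem u hu0).toFinset)
    rw [Finset.mem_union, not_or] at hvT
    have hvu : u ∉ v.asIdeal := fun h => hvT.2 (by simpa using h)
    refine ⟨v, fun h => hvT.1 (by simpa using h), hvN, ?_, hvp, hvη, hvu, hres, ?_⟩
    · intro h
      apply hvp
      rw [← h]
      exact Ideal.absNorm_mem v.asIdeal
    · intro hures
      apply hres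
      have hmax : v.asIdeal.IsMaximal := v.isMaximal
      let _ := Ideal.Quotient.field v.asIdeal
      rw [exists_pow_sub_mem_iff] at hures ⊢
      obtain ⟨z, hz⟩ := hures
      have hu' : Ideal.Quotient.mk v.asIdeal u ≠ 0 := by
        rwa [Ne, Ideal.Quotient.eq_zero_iff_mem]
      have hη' : Ideal.Quotient.mk v.asIdeal η ≠ 0 := by
        rwa [Ne, Ideal.Quotient.eq_zero_iff_mem]
      have hz0 : z ≠ 0 := by
        rintro rfl
        rw [zero_pow hp.ne_zero] at hz
        exact hu' hz.symm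
      have hrel : (Ideal.Quotient.mk v.asIdeal η) ^ e = (Ideal.Quotient.mk v.asIdeal w / z) ^ p := by
        have := congrArg (Ideal.Quotient.mk v.asIdeal) hw
        rw [map_mul, map_pow, map_pow, ← hz] at this
        rw [div_pow, ← this, mul_div_cancel_left₀ _ (pow_ne_zero _ hz0)]
      exact exists_pow_eq_of_pow_eq hp he hη' hrel
  · -- case B: `η ∉ (u η)^k K^p`
    have hb : ∀ k : ℕ, ¬ ∃ x : K, (η : K) = ((u * η : 𝓞 K) : K) ^ k * x ^ p := by
      rintro k ⟨x, hx⟩
      have hx0 : x ≠ 0 := by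
        rintro rfl
        rw [zero_pow hp.ne_zero, mul_zero] at hx
        exact hη0K hx
      have hcoe : ((u * η : 𝓞 K) : K) = (u : K) * (η : K) := map_mul (algebraMap (𝓞 K) K) u η
      rw [hcoe] at hx
      by_cases hk : p ∣ k
      · obtain ⟨m, rfl⟩ := hk
        exact hη ⟨((u : K) * (η : K)) ^ m * x, by rw [mul_pow, ← pow_mul, mul_comm m p]; exact hx.symm⟩
      · have hcop : Nat.Coprime k p := ((Nat.Prime.coprime_iff_not_dvd hp).2 hk).symm
        obtain ⟨s, -, hs⟩ := Nat.exists_mul_mod_eq_one_of_coprime hcop hp.one_lt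
        obtain ⟨t, hst⟩ : ∃ t, k * s = 1 + p * t :=
          ⟨k * s / p, by have := Nat.div_add_mod (k * s) p; omega⟩
        -- `u * η ^ e = w ^ p` with `e + s = s * k + s * p`
        set e : ℕ := s * k + s * (p - 1) with he
        have hes : e + s = k * s + s * p := by
          have : s * (p - 1) + s = s * p := by
            have := hp.pos
            calc s * (p - 1) + s = s * (p - 1 + 1) := by ring
              _ = s * p := by rw [Nat.sub_add_cancel this]
          rw [he]; linarith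
        set w : K := (η : K) ^ s / ((u : K) ^ t * x ^ s) with hwdef
        have hden : (u : K) ^ t * x ^ s ≠ 0 := mul_ne_zero (pow_ne_zero _ hu0K) (pow_ne_zero _ hx0)
        have hw : (u : K) * (η : K) ^ e = w ^ p := by
          have h1 : (u : K) ^ (k * s) * (η : K) ^ (k * s) * x ^ (p * s) = (η : K) ^ s := by
            conv_rhs => rw [hx]
            ring
          have h2 : (u : K) * (η : K) ^ e * (η : K) ^ s * ((u : K) ^ t * x ^ s) ^ p =
              (η : K) ^ s * ((η : K) ^ s) ^ p := by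
            have e1 : (u : K) * (η : K) ^ e * (η : K) ^ s * ((u : K) ^ t * x ^ s) ^ p =
                (u : K) ^ (1 + p * t) * (η : K) ^ (e + s) * x ^ (p * s) := by ring
            calc (u : K) * (η : K) ^ e * (η : K) ^ s * ((u : K) ^ t * x ^ s) ^ p
                = ((u : K) ^ (k * s) * (η : K) ^ (k * s) * x ^ (p * s)) * (η : K) ^ (s * p) := by
                  rw [e1, ← hst, hes]; ring
              _ = (η : K) ^ s * ((η : K) ^ s) ^ p := by rw [h1, pow_mul]
          rw [hwdef, div_pow, eq_div_iff (pow_ne_zero _ hden)]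
          have h3 : (η : K) ^ s ≠ 0 := pow_ne_zero _ hη0K
          apply mul_left_cancel₀ h3
          rw [← h2]; ring
        by_cases hpe : p ∣ e
        · obtain ⟨m, hm⟩ := hpe
          apply hu
          refine ⟨w / (η : K) ^ m, ?_⟩
          rw [div_pow, ← hw, hm, ← pow_mul, mul_comm m p, mul_div_cancel_right₀]
          exact pow_ne_zero _ hη0K
        · have hwint : w ∈ integralClosure ℤ K := by
            have h4 : IsIntegral ℤ (w ^ p) := by
              rw [← hw]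
              exact (RingOfIntegers.isIntegral_coe u).mul ((RingOfIntegers.isIntegral_coe η).pow e)
            exact IsIntegral.of_pow hp.pos h4
          obtain ⟨w', hw'eq⟩ : ∃ w' : 𝓞 K, (w' : K) = w := ⟨⟨w, hwint⟩, rfl⟩
          apply hA
          refine ⟨e, w', hpe, RingOfIntegers.ext ?_⟩
          change algebraMap (𝓞 K) K (u * η ^ e) = algebraMap (𝓞 K) K (w' ^ p)
          rw [map_mul, map_pow, map_pow]
          exact hw.trans (congrArg (· ^ p) hw'eq.symm)
    obtain ⟨v, hvT, hvN, hvne, hvp, hvuη, hvη, hres1, hres2⟩ :=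
      exists_prime_residue_nonresidue hp K ζ (u * η) η hζ (mul_ne_zero hu0 hη0) hb T
    have hvu : u ∉ v.asIdeal := fun h => hvuη (Ideal.mul_mem_right _ _ h)
    refine ⟨v, hvT, hvN, hvne, hvp, hvη, hvu, hres2, ?_⟩
    intro hures
    have hmax : v.asIdeal.IsMaximal := v.isMaximal
    exact hres2 (exists_pow_sub_mem_of_mul v.asIdeal hp hvu hures hres1)

end Fermat.Agent.S14Z
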